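import Fermat.Agent.S21.C4.Core

/-!
# Project ES, work package C4: the number of `⟨T⟩`-orbits on `SL(2,ℤ) ⧸ Γ₀(N)`

`cuspOrbit_card_Gamma0 : Nat.card (orbits of ⟨T⟩ on SL(2,ℤ) ⧸ Γ₀(N)) = cuspCount N`.
-/

set_option autoImplicit false

open CongruenceSubgroup
open scoped MatrixGroups

namespace Fermat.Agent.S21.C4

/-! ### The set of labels -/

theorem label_mem_labelSet {N : ℕ} (hN : 0 < N) {a c : ℤ} (h : IsCoprime a c) :
    label N a c ∈ labelSet N := by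
  obtain ⟨c₁, M, hc₁, hM, e1, e2, hcop⟩ := exists_decomp hN c
  have hdpos := gcd_pos' hN c
  have hepos : 0 < eOf N (Int.gcd c N) := eOf_pos hdpos
  have : NeZero (eOf N (Int.gcd c N)) := ⟨hepos.ne'⟩
  have heM : ((eOf N (Int.gcd c N) : ℕ) : ℤ) ∣ (M : ℤ) := by
    have := eOf_dvd_right N (Int.gcd c N)
    rw [e2] at this
    exact Int.natCast_dvd_natCast.2 this
  have hed : ((eOf N (Int.gcd c N) : ℕ) : ℤ) ∣ ((Int.gcd c N : ℕ) : ℤ) :=
    Int.natCast_dvd_natCast.2 (eOf_dvd_left N _)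
  have hdc : ((Int.gcd c N : ℕ) : ℤ) ∣ c := Int.gcd_dvd_left _ _
  unfold label labelSet
  rw [Finset.mem_sigma]
  refine ⟨Nat.mem_divisors.2 ⟨Int.natCast_dvd_natCast.1 (Int.gcd_dvd_right _ _), hN.ne'⟩, ?_⟩
  rw [Finset.mem_filter, Finset.mem_range]
  refine ⟨ZMod.val_lt _, ?_⟩
  rw [e1]
  have hua : IsUnit ((a : ℤ) : ZMod (eOf N (Int.gcd c N))) := by
    rw [ZMod.coe_int_isUnit_iff_isCoprime]
    exact IsCoprime.of_isCoprime_of_dvd_left (h.symm.of_isCoprime_of_dvd_left hdc) hed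
  have huc : IsUnit ((c₁ : ℤ) : ZMod (eOf N (Int.gcd c N))) := by
    rw [ZMod.coe_int_isUnit_iff_isCoprime]
    exact (IsCoprime.of_isCoprime_of_dvd_right hcop heM).symm
  have huc' : IsUnit (((c₁ : ℤ) : ZMod (eOf N (Int.gcd c N)))⁻¹) := by
    have h1 : IsUnit (((c₁ : ℤ) : ZMod (eOf N (Int.gcd c N)))
        * ((c₁ : ℤ) : ZMod (eOf N (Int.gcd c N)))⁻¹) := by
      rw [ZMod.mul_inv_of_unit _ huc]
      exact isUnit_one
    exact (IsUnit.mul_iff.1 h1).2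
  obtain ⟨u, hu⟩ := hua.mul huc'
  show (eOf N (Int.gcd c N)).Coprime (rOf (eOf N (Int.gcd c N)) a c₁)
  unfold rOf
  rw [← hu]
  exact (ZMod.val_coe_unit_coprime u).symm

theorem exists_label_eq {N : ℕ} (hN : 0 < N) {x : Σ _ : ℕ, ℕ} (hx : x ∈ labelSet N) :
    ∃ a c : ℤ, IsCoprime a c ∧ label N a c = x := by
  obtain ⟨d, r⟩ := x
  unfold labelSet at hx
  rw [Finset.mem_sigma, Finset.mem_filter, Finset.mem_range] at hx
  obtain ⟨hd, hr, hcop⟩ := hx
  have hd : d ∣ N := (Nat.mem_divisors.1 hd).1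
  have hdpos : 0 < d := Nat.pos_of_dvd_of_pos hd hN
  have : NeZero d := ⟨hdpos.ne'⟩
  have hepos : 0 < eOf N d := eOf_pos hdpos
  have : NeZero (eOf N d) := ⟨hepos.ne'⟩
  have hed : eOf N d ∣ d := eOf_dvd_left N d
  obtain ⟨u, hu⟩ := ZMod.unitsMap_surjective hed (ZMod.unitOfCoprime r hcop.symm)
  have hgd : Int.gcd (d : ℤ) (N : ℤ) = d := by
    rw [Int.gcd_natCast_natCast]
    exact Nat.gcd_eq_left hd
  have hcast : ((((u : ZMod d).val : ℕ) : ℤ) : ZMod (eOf N d)) = (r : ZMod (eOf N d)) := by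
    have h1 := congrArg (fun w : (ZMod (eOf N d))ˣ => (w : ZMod (eOf N d))) hu
    simp only [ZMod.unitsMap_def, Units.coe_map, MonoidHom.coe_coe, ZMod.castHom_apply,
      ZMod.coe_unitOfCoprime] at h1
    rw [← h1]
    push_cast
    rw [ZMod.natCast_val]
  refine ⟨((u : ZMod d).val : ℤ), (d : ℤ), ?_, ?_⟩
  · exact Nat.isCoprime_iff_coprime.2 (ZMod.val_coe_unit_coprime u)
  · unfold label
    rw [hgd]
    rw [Sigma.mk.injEq]
    refine ⟨rfl, heq_of_eq ?_⟩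
    unfold rOf
    rw [Int.ediv_self (by exact_mod_cast hdpos.ne'), hcast]
    simp only [Int.cast_one, ZMod.inv_one, mul_one]
    exact ZMod.val_natCast_of_lt hr

/-! ### The label of the first column of a matrix -/

/-- the label of the first column of `g` -/
noncomputable def colLabel (N : ℕ) (g : SL(2, ℤ)) : (Σ _ : ℕ, ℕ) := label N (g 0 0) (g 1 0)

lemma entry_inv_mul_T_zpow_mul (g g' : SL(2, ℤ)) (k : ℤ) :
    (g⁻¹ * ModularGroup.T ^ k * g') 1 0 = g 0 0 * g' 1 0 - g' 0 0 * g 1 0 + (-k) * g 1 0 * g' 1 0 := by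
  simp only [Matrix.SpecialLinearGroup.coe_mul, Matrix.SpecialLinearGroup.coe_inv,
    ModularGroup.coe_T_zpow, Matrix.adjugate_fin_two, Matrix.mul_apply, Fin.sum_univ_two,
    Matrix.of_apply, Matrix.cons_val', Matrix.cons_val_zero, Matrix.cons_val_one,
    Matrix.empty_val', Matrix.cons_val_fin_one]
  ring

theorem colLabel_eq_iff {N : ℕ} (hN : 0 < N) (g g' : SL(2, ℤ)) :
    colLabel N g = colLabel N g' ↔ ∃ k : ℤ, g⁻¹ * ModularGroup.T ^ k * g' ∈ Gamma0 N := by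
  unfold colLabel
  rw [label_eq_iff hN (Matrix.SpecialLinearGroup.isCoprime_col g 0)
    (Matrix.SpecialLinearGroup.isCoprime_col g' 0)]
  constructor
  · rintro ⟨k, hk⟩
    refine ⟨-k, ?_⟩
    rw [Gamma0_mem, ZMod.intCast_zmod_eq_zero_iff_dvd, entry_inv_mul_T_zpow_mul, neg_neg]
    exact hk
  · rintro ⟨k, hk⟩
    refine ⟨-k, ?_⟩
    rw [Gamma0_mem, ZMod.intCast_zmod_eq_zero_iff_dvd, entry_inv_mul_T_zpow_mul] at hk
    exact hk

theorem colLabel_mem {N : ℕ} (hN : 0 < N) (g : SL(2, ℤ)) : colLabel N g ∈ labelSet N :=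
  label_mem_labelSet hN (Matrix.SpecialLinearGroup.isCoprime_col g 0)

theorem exists_colLabel_eq {N : ℕ} (hN : 0 < N) {x : Σ _ : ℕ, ℕ} (hx : x ∈ labelSet N) :
    ∃ g : SL(2, ℤ), colLabel N g = x := by
  obtain ⟨a, c, ⟨u, v, huv⟩, hl⟩ := exists_label_eq hN hx
  refine ⟨⟨!![a, -v; c, u], ?_⟩, ?_⟩
  · rw [Matrix.det_fin_two_of]
    linear_combination huv
  · unfold colLabel
    simpa using hl

/-! ### Orbits -/

/-- the projection from `SL(2,ℤ)` to the set of `⟨T⟩`-orbits on `SL(2,ℤ) ⧸ Γ₀(N)` -/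
def orbProj (N : ℕ) (g : SL(2, ℤ)) :
    MulAction.orbitRel.Quotient (Subgroup.zpowers ModularGroup.T) (SL(2, ℤ) ⧸ Gamma0 N) :=
  Quotient.mk'' (g : SL(2, ℤ) ⧸ Gamma0 N)

lemma orbProj_surjective (N : ℕ) : Function.Surjective (orbProj N) := by
  intro q
  obtain ⟨x, rfl⟩ := Quotient.mk''_surjective q
  obtain ⟨g, rfl⟩ := QuotientGroup.mk_surjective x
  exact ⟨g, rfl⟩

lemma orbProj_eq_iff (N : ℕ) (g g' : SL(2, ℤ)) :
    orbProj N g = orbProj N g' ↔ ∃ k : ℤ, g⁻¹ * ModularGroup.T ^ k * g' ∈ Gamma0 N := by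
  unfold orbProj
  rw [Quotient.eq'', MulAction.orbitRel_apply, MulAction.mem_orbit_iff]
  constructor
  · rintro ⟨⟨t, ht⟩, h⟩
    obtain ⟨k, rfl⟩ := Subgroup.mem_zpowers_iff.1 ht
    change ((ModularGroup.T ^ k * g' : SL(2, ℤ)) : SL(2, ℤ) ⧸ Gamma0 N) = g at h
    rw [QuotientGroup.eq] at h
    refine ⟨k, ?_⟩
    have := (Gamma0 N).inv_mem h
    simpa [mul_assoc] using this
  · rintro ⟨k, hk⟩
    refine ⟨⟨ModularGroup.T ^ k, Subgroup.mem_zpowers_iff.2 ⟨k, rfl⟩⟩, ?_⟩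
    change ((ModularGroup.T ^ k * g' : SL(2, ℤ)) : SL(2, ℤ) ⧸ Gamma0 N) = g
    rw [QuotientGroup.eq]
    have := (Gamma0 N).inv_mem hk
    simpa [mul_assoc] using this

/-- **WP-C4**: the number of orbits of `⟨T⟩` on `SL(2,ℤ) ⧸ Γ₀(N)` is
`∑_{d ∣ N} φ(gcd(d, N/d))`. -/
theorem cuspOrbit_card_Gamma0 (N : ℕ) [NeZero N] :
    Nat.card (MulAction.orbitRel.Quotient (Subgroup.zpowers ModularGroup.T)
      (SL(2, ℤ) ⧸ Gamma0 N)) = ModularCurve.cuspCount N := by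
  have hN : 0 < N := Nat.pos_of_ne_zero (NeZero.ne N)
  -- the induced map on orbits
  let Ψ : MulAction.orbitRel.Quotient (Subgroup.zpowers ModularGroup.T) (SL(2, ℤ) ⧸ Gamma0 N) →
      (Σ _ : ℕ, ℕ) := fun q => colLabel N (Function.surjInv (orbProj_surjective N) q)
  have hΨ : ∀ g, Ψ (orbProj N g) = colLabel N g := by
    intro g
    show colLabel N (Function.surjInv (orbProj_surjective N) (orbProj N g)) = colLabel N g
    rw [colLabel_eq_iff hN, ← orbProj_eq_iff]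
    exact Function.surjInv_eq (orbProj_surjective N) _
  have hinj : Function.Injective Ψ := by
    intro q q' h
    obtain ⟨g, rfl⟩ := orbProj_surjective N q
    obtain ⟨g', rfl⟩ := orbProj_surjective N q'
    rw [hΨ, hΨ, colLabel_eq_iff hN, ← orbProj_eq_iff] at h
    exact h
  have hrange : Set.range Ψ = (labelSet N : Set (Σ _ : ℕ, ℕ)) := by
    ext x
    constructor
    · rintro ⟨q, rfl⟩
      obtain ⟨g, rfl⟩ := orbProj_surjective N q
      rw [hΨ]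
      exact colLabel_mem hN g
    · intro hx
      obtain ⟨g, hg⟩ := exists_colLabel_eq hN (Finset.mem_coe.1 hx)
      exact ⟨orbProj N g, by rw [hΨ, hg]⟩
  rw [Nat.card_congr (Equiv.ofInjective Ψ hinj), hrange, ← card_labelSet]
  exact Nat.card_eq_finsetCard (labelSet N)

end Fermat.Agent.S21.C4
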