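import Mathlib
import Fermat.Prelude.Def_ModularCurve_GenusNumerics

/-!
# Project ES, work package C4 (number-theoretic core)

Labels of primitive vectors `(a, c)` modulo `N`:  `d = gcd(c, N)`, `e = gcd(d, N/d)` and
`r = a * (c/d)⁻¹ mod e`.  Two primitive vectors have the same label iff
`N ∣ a c' - a' c + k c c'` for some integer `k` (this is the relation "same `⟨T⟩`-orbit on
`SL(2,ℤ)/Γ₀(N)`" for the first columns), and the labels are exactly the pairs `(d, r)` with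
`d ∣ N`, `r < e`, `gcd(r, e) = 1`.
-/

set_option autoImplicit false

namespace Fermat.Agent.S21.C4

/-- `e(d) = gcd(d, N/d)` -/
def eOf (N d : ℕ) : ℕ := Nat.gcd d (N / d)

/-- the residue `a * c₁⁻¹ mod e` as a natural number `< e` -/
noncomputable def rOf (e : ℕ) (a c₁ : ℤ) : ℕ := ((a : ZMod e) * ((c₁ : ZMod e))⁻¹).val

/-- the label `(d, r)` of the vector `(a, c)` -/
noncomputable def label (N : ℕ) (a c : ℤ) : (Σ _ : ℕ, ℕ) :=
  ⟨Int.gcd c N, rOf (eOf N (Int.gcd c N)) a (c / (Int.gcd c N : ℤ))⟩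

/-- the finite set of all possible labels -/
def labelSet (N : ℕ) : Finset (Σ _ : ℕ, ℕ) :=
  N.divisors.sigma (fun d => (Finset.range (eOf N d)).filter (fun r => (eOf N d).Coprime r))

theorem card_labelSet (N : ℕ) : (labelSet N).card = ModularCurve.cuspCount N := by
  unfold labelSet ModularCurve.cuspCount
  rw [Finset.card_sigma]
  refine Finset.sum_congr rfl (fun d _ => ?_)
  rw [Nat.totient_eq_card_coprime]
  rfl

lemma eOf_pos {N d : ℕ} (hd : 0 < d) : 0 < eOf N d :=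
  Nat.gcd_pos_of_pos_left _ hd

lemma eOf_dvd_left (N d : ℕ) : eOf N d ∣ d := Nat.gcd_dvd_left _ _

lemma eOf_dvd_right (N d : ℕ) : eOf N d ∣ N / d := Nat.gcd_dvd_right _ _

lemma gcd_pos' {N : ℕ} (hN : 0 < N) (c : ℤ) : 0 < Int.gcd c N :=
  Int.gcd_pos_of_ne_zero_right _ (by exact_mod_cast hN.ne')

lemma rOf_eq_iff {e : ℕ} (he : 0 < e) {a c₁ a' c₁' : ℤ}
    (hc : IsCoprime c₁ (e : ℤ)) (hc' : IsCoprime c₁' (e : ℤ)) :
    rOf e a c₁ = rOf e a' c₁' ↔ (e : ℤ) ∣ a * c₁' - a' * c₁ := by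
  have : NeZero e := ⟨he.ne'⟩
  have hu : IsUnit ((c₁ : ℤ) : ZMod e) := (ZMod.coe_int_isUnit_iff_isCoprime c₁ e).2 hc.symm
  have hu' : IsUnit ((c₁' : ℤ) : ZMod e) := (ZMod.coe_int_isUnit_iff_isCoprime c₁' e).2 hc'.symm
  have h1 : ((c₁ : ZMod e)) * (c₁ : ZMod e)⁻¹ = 1 := ZMod.mul_inv_of_unit _ hu
  have h1' : ((c₁' : ZMod e)) * (c₁' : ZMod e)⁻¹ = 1 := ZMod.mul_inv_of_unit _ hu'
  unfold rOf
  rw [(ZMod.val_injective e).eq_iff, ← ZMod.intCast_zmod_eq_zero_iff_dvd]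
  push_cast
  constructor
  · intro h
    linear_combination ((c₁ : ZMod e) * c₁') * h - ((a : ZMod e) * c₁') * h1
      + ((a' : ZMod e) * c₁) * h1'
  · intro h0
    linear_combination ((c₁ : ZMod e)⁻¹ * (c₁' : ZMod e)⁻¹) * h0
      - ((a : ZMod e) * (c₁ : ZMod e)⁻¹) * h1' + ((a' : ZMod e) * (c₁' : ZMod e)⁻¹) * h1

lemma gcd_dvd_of_rel {N : ℕ} {a c a' c' k : ℤ} (h : IsCoprime a c)
    (hk : (N : ℤ) ∣ a * c' - a' * c + k * c * c') : Int.gcd c N ∣ Int.gcd c' N := by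
  have hdc : ((Int.gcd c N : ℕ) : ℤ) ∣ c := Int.gcd_dvd_left _ _
  have hdN : ((Int.gcd c N : ℕ) : ℤ) ∣ (N : ℤ) := Int.gcd_dvd_right _ _
  have h1 : ((Int.gcd c N : ℕ) : ℤ) ∣ a * c' := by
    have h2 : ((Int.gcd c N : ℕ) : ℤ) ∣ c * (a' - k * c') := hdc.mul_right _
    have h3 := dvd_add (hdN.trans hk) h2
    have h4 : a * c' - a' * c + k * c * c' + c * (a' - k * c') = a * c' := by ring
    rwa [h4] at h3
  have hcop : IsCoprime ((Int.gcd c N : ℕ) : ℤ) a := h.symm.of_isCoprime_of_dvd_left hdc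
  have h3 : ((Int.gcd c N : ℕ) : ℤ) ∣ c' := hcop.dvd_of_dvd_mul_left h1
  exact Int.natCast_dvd_natCast.1 (Int.dvd_coe_gcd h3 hdN)

/-- decomposition data for a vector: `c = d c₁`, `N = d M`, `gcd(c₁, M) = 1`. -/
lemma exists_decomp {N : ℕ} (hN : 0 < N) (c : ℤ) :
    ∃ (c₁ : ℤ) (M : ℕ), c = (Int.gcd c N : ℤ) * c₁ ∧ N = Int.gcd c N * M ∧
      c / (Int.gcd c N : ℤ) = c₁ ∧ N / Int.gcd c N = M ∧ IsCoprime c₁ (M : ℤ) := by
  have hd := gcd_pos' hN c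
  have hd' : ((Int.gcd c N : ℕ) : ℤ) ≠ 0 := by exact_mod_cast hd.ne'
  obtain ⟨c₁, hc₁⟩ : ((Int.gcd c N : ℕ) : ℤ) ∣ c := Int.gcd_dvd_left _ _
  obtain ⟨M, hM⟩ : Int.gcd c N ∣ N := Int.natCast_dvd_natCast.1 (Int.gcd_dvd_right _ _)
  have e1 : c / (Int.gcd c N : ℤ) = c₁ := Int.ediv_eq_of_eq_mul_right hd' hc₁
  refine ⟨c₁, M, hc₁, hM, e1, Nat.div_eq_of_eq_mul_right hd hM, ?_⟩
  have h := Int.gcd_div_gcd_div_gcd (i := c) (j := (N : ℤ)) hd
  have e2 : (N : ℤ) / (Int.gcd c N : ℤ) = (M : ℤ) :=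
    Int.ediv_eq_of_eq_mul_right hd' (by exact_mod_cast hM)
  rw [e1, e2] at h
  exact Int.isCoprime_iff_gcd_eq_one.2 h

lemma rel_iff_of_gcd_eq {N : ℕ} (hN : 0 < N) {a c a' c' : ℤ}
    (hd : Int.gcd c N = Int.gcd c' N) :
    (∃ k : ℤ, (N : ℤ) ∣ a * c' - a' * c + k * c * c') ↔
      ((eOf N (Int.gcd c N) : ℕ) : ℤ) ∣
        a * (c' / (Int.gcd c N : ℤ)) - a' * (c / (Int.gcd c N : ℤ)) := by
  obtain ⟨c₁, M, hc₁, hM, e1, e2, hcop⟩ := exists_decomp hN c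
  obtain ⟨c₁', M', hc₁', hM', e1', e2', hcop'⟩ := exists_decomp hN c'
  rw [← hd] at hc₁' hM' e1' e2'
  have hdpos := gcd_pos' hN c
  have hd0 : ((Int.gcd c N : ℕ) : ℤ) ≠ 0 := by exact_mod_cast hdpos.ne'
  have hMM : M' = M := by rw [← e2, ← e2']
  subst hMM
  rw [e1, e1']
  have heM : ((eOf N (Int.gcd c N) : ℕ) : ℤ) ∣ (M' : ℤ) := by
    have := eOf_dvd_right N (Int.gcd c N)
    rw [e2] at this
    exact Int.natCast_dvd_natCast.2 this
  have hed : ((eOf N (Int.gcd c N) : ℕ) : ℤ) ∣ ((Int.gcd c N : ℕ) : ℤ) :=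
    Int.natCast_dvd_natCast.2 (eOf_dvd_left N _)
  have hNd : (N : ℤ) = (Int.gcd c N : ℤ) * (M' : ℤ) := by exact_mod_cast hM
  constructor
  · rintro ⟨k, hk⟩
    have h1 : (Int.gcd c N : ℤ) * (M' : ℤ) ∣
        (Int.gcd c N : ℤ) * (a * c₁' - a' * c₁ + k * (Int.gcd c N : ℤ) * c₁ * c₁') := by
      rw [← hNd]
      have h2 : (Int.gcd c N : ℤ) * (a * c₁' - a' * c₁ + k * (Int.gcd c N : ℤ) * c₁ * c₁')
          = a * ((Int.gcd c N : ℤ) * c₁') - a' * ((Int.gcd c N : ℤ) * c₁)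
            + k * ((Int.gcd c N : ℤ) * c₁) * ((Int.gcd c N : ℤ) * c₁') := by ring
      rw [h2, ← hc₁, ← hc₁']
      exact hk
    have h3 : (M' : ℤ) ∣ a * c₁' - a' * c₁ + k * (Int.gcd c N : ℤ) * c₁ * c₁' :=
      (mul_dvd_mul_iff_left hd0).1 h1
    have h4 := heM.trans h3
    have h5 : ((eOf N (Int.gcd c N) : ℕ) : ℤ) ∣ k * (Int.gcd c N : ℤ) * c₁ * c₁' :=
      Dvd.dvd.mul_right (Dvd.dvd.mul_right (Dvd.dvd.mul_left hed k) c₁) c₁'
    exact (dvd_add_left h5).1 h4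
  · rintro ⟨t, ht⟩
    -- Bezout
    have hcc : IsCoprime (c₁ * c₁') (M' : ℤ) := IsCoprime.mul_left hcop hcop'
    obtain ⟨u, v, huv⟩ := hcc
    have hbez : ((eOf N (Int.gcd c N) : ℕ) : ℤ)
        = (Int.gcd c N : ℤ) * Int.gcdA (Int.gcd c N : ℤ) (M' : ℤ)
          + (M' : ℤ) * Int.gcdB (Int.gcd c N : ℤ) (M' : ℤ) := by
      rw [← Int.gcd_eq_gcd_ab]
      unfold eOf
      rw [e2]
      simp [Int.gcd_natCast_natCast]
    set x := Int.gcdA (Int.gcd c N : ℤ) (M' : ℤ)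
    set y := Int.gcdB (Int.gcd c N : ℤ) (M' : ℤ)
    refine ⟨-(t * x * u), ?_⟩
    rw [hNd]
    refine ⟨t * (x * (Int.gcd c N : ℤ) * v + y), ?_⟩
    have hc₁'' := hc₁
    have hc₁''' := hc₁'
    -- a c' - a' c + k c c' = d (D + k d c₁ c₁')
    have key : a * c₁' - a' * c₁ = (eOf N (Int.gcd c N) : ℤ) * t := ht
    have expand : a * c' - a' * c + -(t * x * u) * c * c'
        = (Int.gcd c N : ℤ) * ((a * c₁' - a' * c₁)
            + -(t * x * u) * (Int.gcd c N : ℤ) * c₁ * c₁') := by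
      conv_lhs => rw [hc₁, hc₁']
      ring
    rw [expand, key, hbez]
    linear_combination (-(t * x * (Int.gcd c N : ℤ) * (Int.gcd c N : ℤ))) * huv

theorem label_eq_iff {N : ℕ} (hN : 0 < N) {a c a' c' : ℤ} (h : IsCoprime a c)
    (h' : IsCoprime a' c') :
    label N a c = label N a' c' ↔ ∃ k : ℤ, (N : ℤ) ∣ a * c' - a' * c + k * c * c' := by
  have key : ∀ (hd : Int.gcd c N = Int.gcd c' N),
      (rOf (eOf N (Int.gcd c N)) a (c / (Int.gcd c N : ℤ))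
        = rOf (eOf N (Int.gcd c N)) a' (c' / (Int.gcd c N : ℤ))
      ↔ ∃ k : ℤ, (N : ℤ) ∣ a * c' - a' * c + k * c * c') := by
    intro hd
    obtain ⟨c₁, M, hc₁, hM, e1, e2, hcop⟩ := exists_decomp hN c
    obtain ⟨c₁', M', hc₁', hM', e1', e2', hcop'⟩ := exists_decomp hN c'
    rw [← hd] at hc₁' hM' e1' e2'
    have hMM : M' = M := by rw [← e2, ← e2']
    subst hMM
    have heM : ((eOf N (Int.gcd c N) : ℕ) : ℤ) ∣ (M' : ℤ) := by
      have := eOf_dvd_right N (Int.gcd c N)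
      rw [e2] at this
      exact Int.natCast_dvd_natCast.2 this
    rw [rel_iff_of_gcd_eq hN hd, rOf_eq_iff (eOf_pos (gcd_pos' hN c))]
    · rw [e1]; exact IsCoprime.of_isCoprime_of_dvd_right hcop heM
    · rw [e1']; exact IsCoprime.of_isCoprime_of_dvd_right hcop' heM
  constructor
  · intro hl
    unfold label at hl
    rw [Sigma.mk.injEq] at hl
    obtain ⟨hd, hr⟩ := hl
    have hr' := eq_of_heq hr
    rw [← hd] at hr'
    exact (key hd).1 hr'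
  · rintro ⟨k, hk⟩
    have hd : Int.gcd c N = Int.gcd c' N := by
      apply Nat.dvd_antisymm (gcd_dvd_of_rel h hk)
      refine gcd_dvd_of_rel (a' := a) (k := -k) h' ?_
      have : a' * c - a * c' + -k * c' * c = -(a * c' - a' * c + k * c * c') := by ring
      rw [this]
      exact (dvd_neg).2 hk
    have hr := (key hd).2 ⟨k, hk⟩
    unfold label
    rw [Sigma.mk.injEq]
    refine ⟨hd, ?_⟩
    rw [← hd]
    exact heq_of_eq hr

end Fermat.Agent.S21.C4
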